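import Mathlib

/-!
# S36 / TOP-K: Kolchin's theorem for quadratic unipotents

Let `𝒪` be a domain with `2 ≠ 0`, `E` a nonzero torsion-free noetherian `𝒪`-module and `H` a
subgroup of a group `G` acting on `E` such that `(g - 1)² = 0` for every `g ∈ H`.  Then `H` has a
common nonzero fixed vector.

The proof is elementary (no Burnside/Wedderburn): for `g = 1 + a`, `h = 1 + b` in `H` the
conditions `(gh - 1)² = 0`, `(g⁻¹h - 1)² = 0` (and the same with `g`, `h` swapped) force
`ab + ba = 0`, i.e. the nilpotent parts pairwise ANTICOMMUTE.  For a family of pairwise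
anticommuting square-zero endomorphisms the image `a(W)` of a stable submodule `W` is again stable,
is killed by `a`, and has smaller rank; induct on the rank.
-/

set_option autoImplicit false

namespace Fermat.Agent.S36.Top.QuadUnipotent

/-! ### the anticommutation lemma in an arbitrary ring -/

section Ring

variable {A : Type*} [Ring A]

/-- If `a² = b² = 0`, `(a + b + ab)² = 0` and `(-a + b - ab)² = 0` in a ring without `2`-torsion, then
`aba = 0` and `ab + ba + bab = 0`. -/
theorem aba_eq_zero (h2 : ∀ x : A, x + x = 0 → x = 0) {a b : A} (ha : a * a = 0) (hb : b * b = 0)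
    (hc : (a + b + a * b) * (a + b + a * b) = 0)
    (hd : (-a + b - a * b) * (-a + b - a * b) = 0) :
    a * b * a = 0 ∧ a * b + b * a + b * a * b = 0 := by
  have e1 : (a + b + a * b) * (a + b + a * b)
      = a * b + b * a + a * b * a + b * a * b + a * b * a * b
        + (a * a + (a * a) * b + b * b + a * (b * b)) := by noncomm_ring
  have e2 : (-a + b - a * b) * (-a + b - a * b)
      = -(a * b) - b * a - b * a * b + a * b * a + a * b * a * b
        + (a * a + (a * a) * b + b * b - a * (b * b)) := by noncomm_ring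
  rw [hc, ha, hb] at e1
  rw [hd, ha, hb] at e2
  simp only [zero_mul, mul_zero, add_zero, sub_zero] at e1 e2
  -- e1 : 0 = ab + ba + aba + bab + abab ; e2 : 0 = -ab - ba - bab + aba + abab
  have hx : (a * b * a + a * b * a * b) + (a * b * a + a * b * a * b) = 0 := by
    have : (a * b * a + a * b * a * b) + (a * b * a + a * b * a * b)
        = (a * b + b * a + a * b * a + b * a * b + a * b * a * b)
          + (-(a * b) - b * a - b * a * b + a * b * a + a * b * a * b) := by noncomm_ring
    rw [this, ← e1, ← e2, add_zero]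
  have hx0 := h2 _ hx
  have haba : a * b * a = 0 := by
    have : a * b * a = (a * b * a + a * b * a * b) - (a * b * a + a * b * a * b) * b
        + a * b * a * (b * b) := by noncomm_ring
    rw [this, hx0, hb]
    simp
  refine ⟨haba, ?_⟩
  have hy : (a * b + b * a + b * a * b) + (a * b + b * a + b * a * b) = 0 := by
    have : (a * b + b * a + b * a * b) + (a * b + b * a + b * a * b)
        = (a * b + b * a + a * b * a + b * a * b + a * b * a * b)
          - (-(a * b) - b * a - b * a * b + a * b * a + a * b * a * b) := by noncomm_ring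
    rw [this, ← e1, ← e2, sub_zero]
  exact h2 _ hy

/-- The nilpotent parts of two quadratic unipotents anticommute, provided the four products
`gh`, `g⁻¹h`, `hg`, `h⁻¹g` are quadratic unipotents as well. -/
theorem anticomm_of_quad (h2 : ∀ x : A, x + x = 0 → x = 0) {a b : A} (ha : a * a = 0)
    (hb : b * b = 0)
    (hc : (a + b + a * b) * (a + b + a * b) = 0)
    (hd : (-a + b - a * b) * (-a + b - a * b) = 0)
    (hc' : (b + a + b * a) * (b + a + b * a) = 0)
    (hd' : (-b + a - b * a) * (-b + a - b * a) = 0) :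
    a * b + b * a = 0 := by
  obtain ⟨-, h1⟩ := aba_eq_zero h2 ha hb hc hd
  obtain ⟨h3, -⟩ := aba_eq_zero h2 hb ha hc' hd'
  rw [h3, add_zero] at h1
  exact h1

end Ring

/-! ### common kernel of anticommuting square-zero endomorphisms -/

section Kernel

variable {𝒪 E : Type*} [CommRing 𝒪] [IsDomain 𝒪] [AddCommGroup E] [Module 𝒪 E]
  [Module.IsTorsionFree 𝒪 E] [IsNoetherian 𝒪 E]

theorem exists_common_kernel_aux (𝒜 : Set (Module.End 𝒪 E)) (hsq : ∀ a ∈ 𝒜, a * a = 0)
    (hanti : ∀ a ∈ 𝒜, ∀ b ∈ 𝒜, a * b + b * a = 0) :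
    ∀ (n : ℕ) (W : Submodule 𝒪 E), Module.finrank 𝒪 W = n →
      (∀ a ∈ 𝒜, ∀ w ∈ W, a w ∈ W) → W ≠ ⊥ → ∃ w ∈ W, w ≠ 0 ∧ ∀ a ∈ 𝒜, a w = 0 := by
  intro n
  induction n using Nat.strong_induction_on with
  | _ n ih =>
    intro W hn hstab hW
    by_cases hall : ∀ a ∈ 𝒜, ∀ w ∈ W, a w = 0
    · obtain ⟨w, hw, hw0⟩ := Submodule.exists_mem_ne_zero_of_ne_bot hW
      exact ⟨w, hw, hw0, fun a ha => hall a ha w hw⟩
    · push Not at hall
      obtain ⟨a, ha, w₀, hw₀, hne⟩ := hall
      -- the image `a(W)`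
      have hW'W : W.map a ≤ W := by
        rintro _ ⟨u, hu, rfl⟩
        exact hstab a ha u hu
      have hW' : W.map a ≠ ⊥ := by
        intro h
        have : a w₀ ∈ W.map a := Submodule.mem_map_of_mem hw₀
        rw [h, Submodule.mem_bot] at this
        exact hne this
      have hstab' : ∀ b ∈ 𝒜, ∀ w ∈ W.map a, b w ∈ W.map a := by
        rintro b hb _ ⟨u, hu, rfl⟩
        have h1 := LinearMap.congr_fun (hanti a ha b hb) u
        simp only [LinearMap.add_apply, Module.End.mul_apply, LinearMap.zero_apply] at h1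
        have h2 : b (a u) = a (-(b u)) := by
          rw [map_neg]
          exact eq_neg_of_add_eq_zero_right h1
        rw [h2]
        exact Submodule.mem_map_of_mem (W.neg_mem (hstab b hb u hu))
      -- the rank drops
      have hrank : Module.finrank 𝒪 (W.map a) < Module.finrank 𝒪 W := by
        set f : W →ₗ[𝒪] E := a.domRestrict W with hf
        have hrange : LinearMap.range f = W.map a := LinearMap.range_domRestrict W a
        have h1 := (LinearMap.ker f).finrank_quotient_add_finrank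
        have h2 : Module.finrank 𝒪 (W ⧸ LinearMap.ker f) = Module.finrank 𝒪 (LinearMap.range f) :=
          LinearEquiv.finrank_eq f.quotKerEquivRange
        have h3 : 0 < Module.finrank 𝒪 (LinearMap.ker f) := by
          have hmem : (⟨a w₀, hstab a ha w₀ hw₀⟩ : W) ∈ LinearMap.ker f := by
            rw [LinearMap.mem_ker, hf, LinearMap.domRestrict_apply]
            have := LinearMap.congr_fun (hsq a ha) w₀
            simpa using this
          have : Nontrivial (LinearMap.ker f) := by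
            refine ⟨⟨⟨⟨a w₀, hstab a ha w₀ hw₀⟩, hmem⟩, 0, ?_⟩⟩
            intro h
            apply hne
            have := congrArg (fun x : LinearMap.ker f => ((x : W) : E)) h
            simpa using this
          exact Module.finrank_pos
        rw [← hrange]
        omega
      obtain ⟨w, hw, hw0, hker⟩ := ih _ (hn ▸ hrank) (W.map a) rfl hstab' hW'
      exact ⟨w, hW'W hw, hw0, hker⟩

/-- A family of pairwise anticommuting square-zero endomorphisms of a nonzero torsion-free
noetherian module over a domain has a common nonzero kernel vector. -/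
theorem exists_common_kernel [Nontrivial E] (𝒜 : Set (Module.End 𝒪 E))
    (hsq : ∀ a ∈ 𝒜, a * a = 0) (hanti : ∀ a ∈ 𝒜, ∀ b ∈ 𝒜, a * b + b * a = 0) :
    ∃ w : E, w ≠ 0 ∧ ∀ a ∈ 𝒜, a w = 0 := by
  obtain ⟨w, -, hw0, hker⟩ := exists_common_kernel_aux 𝒜 hsq hanti _ ⊤ rfl
    (fun _ _ _ _ => Submodule.mem_top) top_ne_bot
  exact ⟨w, hw0, hker⟩

end Kernel

/-! ### Kolchin for quadratic unipotents -/

section Group

variable {𝒪 E G : Type*} [CommRing 𝒪] [IsDomain 𝒪] [AddCommGroup E] [Module 𝒪 E]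
  [Module.IsTorsionFree 𝒪 E] [IsNoetherian 𝒪 E] [Group G]

omit [IsNoetherian 𝒪 E] in
theorem end_two_torsion_free (h2 : (2 : 𝒪) ≠ 0) (x : Module.End 𝒪 E) (hx : x + x = 0) : x = 0 := by
  ext v
  have h1 := LinearMap.congr_fun hx v
  simp only [LinearMap.add_apply, LinearMap.zero_apply] at h1
  have h3 : (2 : 𝒪) • x v = 0 := by rw [two_smul]; exact h1
  rcases smul_eq_zero.1 h3 with h | h
  · exact absurd h h2
  · simpa using h

/-- **Kolchin for quadratic unipotents.**  If every element `g` of a subgroup `H` acts with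
`(g - 1)² = 0` on a nonzero torsion-free noetherian module over a domain in which `2 ≠ 0`, then `H`
has a common nonzero fixed vector. -/
theorem exists_fixed_of_quadUnipotent [Nontrivial E] (h2 : (2 : 𝒪) ≠ 0)
    (ρ : G →* Module.End 𝒪 E) (H : Subgroup G)
    (hquad : ∀ g ∈ H, (ρ g - 1) * (ρ g - 1) = 0) :
    ∃ w : E, w ≠ 0 ∧ ∀ g ∈ H, ρ g w = w := by
  have htf := end_two_torsion_free (E := E) h2
  -- `ρ g⁻¹ = 1 - (ρ g - 1)` for `g ∈ H`
  have hinv : ∀ g ∈ H, ρ g⁻¹ = 1 - (ρ g - 1) := by
    intro g hg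
    have h1 : ρ g⁻¹ * ρ g = 1 := by rw [← map_mul, inv_mul_cancel, map_one]
    have h3 : (1 - (ρ g - 1)) * ρ g = 1 := by
      have : (1 - (ρ g - 1)) * ρ g = 1 - (ρ g - 1) * (ρ g - 1) := by noncomm_ring
      rw [this, hquad g hg, sub_zero]
    have h4 : ρ g * ρ g⁻¹ = 1 := by rw [← map_mul, mul_inv_cancel, map_one]
    calc ρ g⁻¹ = ((1 - (ρ g - 1)) * ρ g) * ρ g⁻¹ := by rw [h3, one_mul]
      _ = (1 - (ρ g - 1)) * (ρ g * ρ g⁻¹) := by rw [mul_assoc]
      _ = 1 - (ρ g - 1) := by rw [h4, mul_one]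
  set 𝒜 : Set (Module.End 𝒪 E) := {a | ∃ g ∈ H, a = ρ g - 1} with h𝒜
  have hsq : ∀ a ∈ 𝒜, a * a = 0 := by
    rintro _ ⟨g, hg, rfl⟩
    exact hquad g hg
  have hkey : ∀ g ∈ H, ∀ h ∈ H,
      ((ρ g - 1) + (ρ h - 1) + (ρ g - 1) * (ρ h - 1))
        * ((ρ g - 1) + (ρ h - 1) + (ρ g - 1) * (ρ h - 1)) = 0 ∧
      (-(ρ g - 1) + (ρ h - 1) - (ρ g - 1) * (ρ h - 1))
        * (-(ρ g - 1) + (ρ h - 1) - (ρ g - 1) * (ρ h - 1)) = 0 := by
    intro g hg h hh
    constructor
    · have h1 : (ρ g - 1) + (ρ h - 1) + (ρ g - 1) * (ρ h - 1) = ρ (g * h) - 1 := by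
        rw [map_mul]; noncomm_ring
      rw [h1]
      exact hquad _ (H.mul_mem hg hh)
    · have h1 : -(ρ g - 1) + (ρ h - 1) - (ρ g - 1) * (ρ h - 1) = ρ (g⁻¹ * h) - 1 := by
        rw [map_mul, hinv g hg]; noncomm_ring
      rw [h1]
      exact hquad _ (H.mul_mem (H.inv_mem hg) hh)
  have hanti : ∀ a ∈ 𝒜, ∀ b ∈ 𝒜, a * b + b * a = 0 := by
    rintro _ ⟨g, hg, rfl⟩ _ ⟨h, hh, rfl⟩
    exact anticomm_of_quad htf (hquad g hg) (hquad h hh) (hkey g hg h hh).1 (hkey g hg h hh).2
      (hkey h hh g hg).1 (hkey h hh g hg).2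
  obtain ⟨w, hw0, hker⟩ := exists_common_kernel 𝒜 hsq hanti
  refine ⟨w, hw0, fun g hg => ?_⟩
  have := hker (ρ g - 1) ⟨g, hg, rfl⟩
  rw [LinearMap.sub_apply, Module.End.one_apply, sub_eq_zero] at this
  exact this

end Group

end Fermat.Agent.S36.Top.QuadUnipotent
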