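/-
S36 / TOP-A (helper27): **the algebraic reduction of S36 to ONE Prop about the Tate module.**

`S30Assembly.exists_galoisRepAdic` builds the rank-two representation `ρ'` attached to a Hecke
character `χ` with `charpoly ρ'(σ) = X² - s(σ) X + χ_cyc(σ)` for EVERY `σ`, where `s(σ)` is THE
scalar by which `ρ(σ) + χ_cyc(σ) ρ(σ)⁻¹` acts on the `χ`-eigenlattice `M_χ ⊆ 𝒪 ⊗ T`.  For `σ` in an
inertia group `I_P` at a prime `q ≠ p` we have `χ_cyc(σ) = 1`, so if `ρ'` is unipotent on `I_P` then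
`s(σ) = 2`, i.e. `(ρ(σ) - 1)² = 0` on `M_χ` for every `σ ∈ I_P`.  By Kolchin's theorem for quadratic
unipotents (`QuadUnipotent`), `I_P` then fixes a nonzero vector of every nonzero `I_P`-stable
submodule of `M_χ`, in particular of `M_χ ⊓ (𝒪 ⊗ K')` for `K' = ker α_* ⊓ ker β_*` — impossible
if `(𝒪 ⊗ K')^{I_P} = 0`.

* `exists_fixed_of_quadUnipotent_submodule`: Kolchin for a stable submodule.
* `baseChange_mem_range`: the image of `𝒪 ⊗ K'` in `𝒪 ⊗ T` is stable under the base change of an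
  endomorphism preserving `K'`.
* `NewInertiaFree D S 𝒪 χ q` — **the Prop that remains**: a submodule `K' ≤ T`, a place `P` over `q`
  with `K'` stable under `I_P`, no nonzero `I_P`-invariant vector in the image of `𝒪 ⊗ K'`, and a
  nonzero `χ`-eigenvector in that image.
* `exists_galoisRepAdic_notUnipotent`: the clone of `S30Assembly.exists_galoisRepAdic` with the
  extra clause `NewInertiaFree D S 𝒪 χ q → ¬ ρ'.IsUnipotentOnInertiaAt q`.
* `s36_of_tateData_of_newInertiaFree`: the frozen S36, from `TateData lam M` and `NewInertiaFree` at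
  every `q ≠ lam` with `M.factorization q = 2`.
-/
import Mathlib
import Fermat.Prelude.Def_CuspForm_Newforms
import Fermat.Prelude.Def_GaloisRep_LocalConditions
import Fermat.Agent.N4F.Adic.S30Assembly
import Fermat.Agent.P4.S35Assembly
import Fermat.Agent.S36.Top.QuadUnipotent

set_option autoImplicit false
set_option linter.style.haveILetI false

open Polynomial TensorProduct

namespace Fermat.Agent.S36.Top.Assembly

open Fermat.Agent.N4F.Adic Fermat.Agent.N4F.Adic.EigenLattice Fermat.Agent.N4.FrobDensity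
  Fermat.Agent.N4F.Adic.S30Assembly CuspForm Fermat.Agent.S36.Top.QuadUnipotent

local notation "Qbar" => AlgebraicClosure ℚ
local notation "Γ" => (AlgebraicClosure ℚ ≃ₐ[ℚ] AlgebraicClosure ℚ)

/-! ### Kolchin on a stable submodule -/

section Kolchin

variable {𝒪 E G : Type*} [CommRing 𝒪] [IsDomain 𝒪] [AddCommGroup E] [Module 𝒪 E]
  [Module.IsTorsionFree 𝒪 E] [IsNoetherian 𝒪 E] [Group G]

/-- **Kolchin for quadratic unipotents, on a stable submodule.** -/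
theorem exists_fixed_of_quadUnipotent_submodule (h2 : (2 : 𝒪) ≠ 0) (ρ : G →* Module.End 𝒪 E)
    (H : Subgroup G) (W : Submodule 𝒪 E) (hstab : ∀ g ∈ H, ∀ w ∈ W, ρ g w ∈ W)
    (hquad : ∀ g ∈ H, (ρ g - 1) * (ρ g - 1) = 0) (hW : W ≠ ⊥) :
    ∃ w ∈ W, w ≠ 0 ∧ ∀ g ∈ H, ρ g w = w := by
  -- the restricted action of `H` on `W`
  let ρW : ↥H →* Module.End 𝒪 ↥W :=
    { toFun := fun g => (ρ (g : G)).restrict (hstab g g.2)
      map_one' := by
        apply LinearMap.ext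
        intro w
        apply Subtype.ext
        simp
      map_mul' := fun g h => by
        apply LinearMap.ext
        intro w
        apply Subtype.ext
        simp }
  have hρW : ∀ (g : ↥H) (w : ↥W), ((ρW g w : ↥W) : E) = ρ (g : G) (w : E) := fun _ _ => rfl
  haveI : Nontrivial ↥W := (Submodule.nontrivial_iff_ne_bot).2 hW
  obtain ⟨w, hw0, hw⟩ := exists_fixed_of_quadUnipotent (𝒪 := 𝒪) (E := ↥W) h2 ρW ⊤ (by
    intro g _
    apply LinearMap.ext
    intro w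
    apply Subtype.ext
    have h1 := LinearMap.congr_fun (hquad (g : G) g.2) (w : E)
    simp only [Module.End.mul_apply, LinearMap.sub_apply, Module.End.one_apply,
      LinearMap.zero_apply] at h1
    simp only [Module.End.mul_apply, LinearMap.sub_apply, Module.End.one_apply,
      LinearMap.zero_apply, Submodule.coe_sub, hρW, ZeroMemClass.coe_zero]
    exact h1)
  refine ⟨(w : E), w.2, fun h => hw0 (Subtype.ext h), fun g hg => ?_⟩
  have := hw ⟨g, hg⟩ (Subgroup.mem_top _)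
  exact congrArg Subtype.val this

end Kolchin

/-! ### Stability of the image of `𝒪 ⊗ K'` -/

section BaseChange

variable {R₀ 𝒪 T : Type*} [CommRing R₀] [CommRing 𝒪] [Algebra R₀ 𝒪] [AddCommGroup T] [Module R₀ T]

/-- If `f` preserves `K'`, then `f.baseChange 𝒪` preserves the image of `𝒪 ⊗ K'` in `𝒪 ⊗ T`. -/
theorem baseChange_mem_range (f : Module.End R₀ T) (K' : Submodule R₀ T)
    (hf : ∀ x ∈ K', f x ∈ K') {x : 𝒪 ⊗[R₀] T}
    (hx : x ∈ LinearMap.range (K'.subtype.baseChange 𝒪)) :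
    f.baseChange 𝒪 x ∈ LinearMap.range (K'.subtype.baseChange 𝒪) := by
  obtain ⟨y, rfl⟩ := hx
  refine ⟨(f.restrict hf).baseChange 𝒪 y, ?_⟩
  have h1 : K'.subtype ∘ₗ f.restrict hf = f ∘ₗ K'.subtype := by
    ext k
    rfl
  rw [← LinearMap.comp_apply, ← LinearMap.baseChange_comp, h1, LinearMap.baseChange_comp,
    LinearMap.comp_apply]

end BaseChange

/-! ### The Prop that remains -/

section NewInertia

variable {p N : ℕ} [Fact p.Prime] [NeZero N] (D : TateData p N) (S : Finset ℕ)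
  (𝒪 : Type) [CommRing 𝒪] [Algebra ℤ_[p] 𝒪] (χ : heckeAlgebra N 2 (↑S : Set ℕ) →+* 𝒪)

/-- **The input of S36 at a prime `q`** (blueprint `moonshots` 44: `K' = ker α_* ⊓ ker β_*` in the Tate
module of `J₀(N)`, `q² ‖ N`): a submodule `K'` of the Tate module and a place `P` over `q` such that
`K'` is stable under the inertia group `I_P`, the image of `𝒪 ⊗ K'` in `𝒪 ⊗ T` has no nonzero
`I_P`-invariant vector (the CLAIM `New^{I} = 0`), and contains a nonzero `χ`-eigenvector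
(`P4S35/NewAssembly.exists_new_vector_tateData`). -/
def NewInertiaFree (q : ℕ) : Prop :=
  ∃ (K' : Submodule ℤ_[p] D.T) (P : ValuationSubring Qbar), P.LiesOverPrime q ∧
    (∀ σ ∈ P.inertiaSubgroupIn ℚ, ∀ x ∈ K', D.gal σ x ∈ K') ∧
    (∀ x ∈ LinearMap.range (K'.subtype.baseChange 𝒪),
      (∀ σ ∈ P.inertiaSubgroupIn ℚ, (D.gal σ).baseChange 𝒪 x = x) → x = 0) ∧
    ∃ v ∈ LinearMap.range (K'.subtype.baseChange 𝒪), v ≠ 0 ∧
      ∀ i, (tauT D S i).baseChange 𝒪 v = eigenvalue S 𝒪 χ i • v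

end NewInertia

/-! ### The representation, with the non-unipotency clause -/

section Layer1

variable {p N : ℕ} [Fact p.Prime] [NeZero N] (D : TateData p N) (S : Finset ℕ)
  (𝒪 : Type) [CommRing 𝒪] [IsDomain 𝒪] [IsDiscreteValuationRing 𝒪] [CharZero 𝒪]
  [Algebra ℤ_[p] 𝒪] (χ : heckeAlgebra N 2 (↑S : Set ℕ) →+* 𝒪)

/-- The representation of S30 over `𝒪` itself, with the additional clause: `ρ'` is NOT unipotent on
inertia at every prime `q ≠ p` at which `NewInertiaFree` holds. -/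
theorem exists_galoisRepAdic_notUnipotent (hpS : p ∈ S)
    (hNS : ∀ q : ℕ, q.Prime → q ∣ N → q ∈ S)
    (hp𝒪 : (p : 𝒪) ∈ IsLocalRing.maximalIdeal 𝒪)
    (hocc : ∃ v : 𝒪 ⊗[ℤ_[p]] D.T, v ≠ 0 ∧
      ∀ i, (tauT D S i).baseChange 𝒪 v = eigenvalue S 𝒪 χ i • v) :
    ∃ ρ : GaloisRepAdic 𝒪,
      (∀ (ℓ : ℕ) (hℓ : ℓ.Prime) (hℓN : ¬ ℓ ∣ N) (hℓS : ℓ ∉ (↑S : Set ℕ)),
        ∀ A : ValuationSubring Qbar, A.LiesOverPrime ℓ →
          ∀ σ : Γ, A.IsFrobeniusAt σ ℓ →
            LinearMap.charpoly (ρ.ρ σ) =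
              X ^ 2 - C (χ (heckeAlgebra.T hℓ hℓN hℓS)) * X + C ((ℓ : 𝒪))) ∧
      (∀ q : ℕ, q.Prime → ¬ q ∣ N → q ≠ p → ρ.IsUnramifiedAt q) ∧
      (∀ q : ℕ, q.Prime → q ≠ p → NewInertiaFree D S 𝒪 χ q → ¬ ρ.IsUnipotentOnInertiaAt q) := by
  classical
  have hp : p.Prime := Fact.out
  -- the eigenlattice and its Galois action
  have hcomm : ∀ (g : Γ) (i : HeckeIdx N (↑S : Set ℕ)), Commute (D.gal g) (tauT D S i) :=
    fun g i => D.gal_hecke g i.1
  have hnt : Nontrivial (EigenT (tauT D S) (eigenvalue S 𝒪 χ)) := nontrivial_of_eigenvector hocc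
  let ρ : Γ →* Module.End 𝒪 (EigenT (tauT D S) (eigenvalue S 𝒪 χ)) :=
    galEigen (a := eigenvalue S 𝒪 χ) D.gal hcomm
  have hpn : ∀ n : ℕ, algebraMap ℤ_[p] 𝒪 ((p : ℤ_[p]) ^ n) = (p : 𝒪) ^ n := by
    intro n
    rw [map_pow, map_natCast]
  have hp0 : ∀ n : ℕ, (p : 𝒪) ^ n ≠ 0 := fun n =>
    pow_ne_zero n (Nat.cast_ne_zero.2 hp.ne_zero)
  -- continuity, elementwise
  have hcont : ∀ n : ℕ, ∃ L : IntermediateField ℚ Qbar, FiniteDimensional ℚ L ∧
      ∀ σ : Γ, (∀ x ∈ L, σ x = x) → ∀ m, ∃ m', ρ σ m - m = (p : 𝒪) ^ n • m' := by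
    intro n
    obtain ⟨L, hL, h⟩ := D.cont n
    refine ⟨L, hL, fun σ hσ m => ?_⟩
    have h1 := exists_galEigen_sub_eq_smul (a := eigenvalue S 𝒪 χ) D.gal hcomm (h σ hσ)
      (by rw [hpn]; exact hp0 n) m
    rw [hpn] at h1
    exact h1
  have hρ : GaloisActionIsAdicContinuous 𝒪 ρ := by
    intro n
    obtain ⟨L, hL, h⟩ := hcont n
    refine ⟨L, hL, fun σ hσ v => ?_⟩
    obtain ⟨m', hm'⟩ := h σ hσ v
    rw [hm']
    exact Submodule.smul_mem_smul (Ideal.pow_mem_pow hp𝒪 n) Submodule.mem_top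
  -- the cyclotomic character
  let χc : Γ →* 𝒪ˣ := cycloCharIn p (algebraMap ℤ_[p] 𝒪)
  have hχc := cycloCharIn_continuous p (algebraMap ℤ_[p] 𝒪) hp𝒪
  -- the Frobenius relations
  have hrel : ∀ (ℓ : ℕ) (hℓ : ℓ.Prime) (hℓN : ¬ ℓ ∣ N) (hℓS : ℓ ∉ (↑S : Set ℕ)),
      ∀ A : ValuationSubring Qbar, A.LiesOverPrime ℓ → ∀ σ : Γ, A.IsFrobeniusAt σ ℓ →
        ρ σ * ρ σ - χ (heckeAlgebra.T hℓ hℓN hℓS) • ρ σ + ((χc σ : 𝒪ˣ) : 𝒪) • 1 = 0 ∧
          ((χc σ : 𝒪ˣ) : 𝒪) = (ℓ : 𝒪) := by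
    intro ℓ hℓ hℓN hℓS A hA σ hσ
    have hℓp : ℓ ≠ p := by
      rintro rfl
      exact hℓS (Finset.mem_coe.2 hpS)
    have h1 := galEigen_relation (a := eigenvalue S 𝒪 χ) D.gal hcomm
      (i := (⟨ℓ, hℓ, hℓN, hℓS⟩ : HeckeIdx N (↑S : Set ℕ))) (D.frob ℓ hℓ hℓN hℓp A hA σ hσ)
    have h2 : ((χc σ : 𝒪ˣ) : 𝒪) = (ℓ : 𝒪) := cycloCharIn_frob p _ hℓ hℓp hA hσ
    rw [map_natCast] at h1
    rw [h2]
    exact ⟨h1, rfl⟩
  -- the operator identity
  have hop : ∀ g : Γ, ∃ s : 𝒪, ρ g + ((χc g : 𝒪ˣ) : 𝒪) • ρ g⁻¹ = s • 1 := by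
    intro g
    refine exists_scalar_of_frobenius_adicContinuous ρ hρ χc hχc S ?_ g
    intro l hl hlS B hB φ hφ
    have hlN : ¬ l ∣ N := fun h => hlS (hNS l hl h)
    have hlS' : l ∉ (↑S : Set ℕ) := fun h => hlS (Finset.mem_coe.1 h)
    exact ⟨_, (hrel l hl hlN hlS' B hB φ hφ).1⟩
  choose s hs using hop
  -- the quadratic relation `ρ(σ)² - s(σ) ρ(σ) + χ_c(σ) = 0`, for EVERY `σ`
  have hquad : ∀ σ : Γ, ρ σ * ρ σ - s σ • ρ σ + ((χc σ : 𝒪ˣ) : 𝒪) • 1 = 0 := by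
    intro σ
    have h4 := congrArg (fun φ => φ * ρ σ) (hs σ)
    simp only [add_mul, smul_mul_assoc, one_mul] at h4
    rw [← map_mul ρ σ⁻¹ σ, inv_mul_cancel, map_one] at h4
    rw [← h4]
    abel
  -- the rank two representation
  have h2 : (2 : 𝒪) ≠ 0 := two_ne_zero
  have hcc : ((χc complexConjugation : 𝒪ˣ) : 𝒪) = -1 := by
    show ((cycloCharIn p (algebraMap ℤ_[p] 𝒪) complexConjugation : 𝒪ˣ) : 𝒪) = -1
    rw [cycloCharIn_complexConjugation, Units.val_neg, Units.val_one]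
  obtain ⟨V, _, _, _, _, ρ', hV, hchar, hone, hcong⟩ :=
    Core.exists_rank_two_rep ρ χc s hs h2 complexConjugation complexConjugation_mul_self hcc
  have hadic : GaloisActionIsAdicContinuous 𝒪 ρ' := by
    intro n
    obtain ⟨L₁, hL₁, h₁⟩ := hcont n
    obtain ⟨L₂, hL₂, h₂⟩ := cycloCharIn_continuous_of_mem p (algebraMap ℤ_[p] 𝒪)
      (Ideal.span {(p : 𝒪)}) (Ideal.mem_span_singleton_self _) n
    refine ⟨L₁ ⊔ L₂, IntermediateField.finiteDimensional_sup L₁ L₂, fun σ hσ v => ?_⟩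
    have hσ₁ : ∀ x ∈ L₁, σ x = x := fun x hx => hσ x ((le_sup_left : L₁ ≤ L₁ ⊔ L₂) hx)
    have hσ₂ : ∀ x ∈ L₂, σ x = x := fun x hx => hσ x ((le_sup_right : L₂ ≤ L₁ ⊔ L₂) hx)
    have hdvd : (p : 𝒪) ^ n ∣ ((χc σ : 𝒪ˣ) : 𝒪) - 1 := by
      have h3 := h₂ σ hσ₂
      rw [Ideal.span_singleton_pow, Ideal.mem_span_singleton] at h3
      exact h3
    obtain ⟨v', hv'⟩ := hcong ((p : 𝒪) ^ n) σ (h₁ σ hσ₁) hdvd v
    rw [hv']
    exact Submodule.smul_mem_smul (Ideal.pow_mem_pow hp𝒪 n) Submodule.mem_top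
  refine ⟨{ V := V, finrank_eq := hV, ρ := ρ', isAdicContinuous := hadic }, ?_, ?_, ?_⟩
  · -- characteristic polynomials of Frobenius elements
    intro ℓ hℓ hℓN hℓS A hA σ hσ
    obtain ⟨hq, hχℓ⟩ := hrel ℓ hℓ hℓN hℓS A hA σ hσ
    show LinearMap.charpoly (ρ' σ) = _
    rw [hchar σ, hχℓ]
    suffices hsσ : s σ = χ (heckeAlgebra.T hℓ hℓN hℓS) by rw [hsσ]
    -- `s σ = χ(T_ℓ)`
    have h5 : (s σ - χ (heckeAlgebra.T hℓ hℓN hℓS)) • ρ σ = 0 := by
      rw [sub_smul]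
      calc s σ • ρ σ - χ (heckeAlgebra.T hℓ hℓN hℓS) • ρ σ
          = (ρ σ * ρ σ - χ (heckeAlgebra.T hℓ hℓN hℓS) • ρ σ + ((χc σ : 𝒪ˣ) : 𝒪) • 1) -
              (ρ σ * ρ σ - s σ • ρ σ + ((χc σ : 𝒪ˣ) : 𝒪) • 1) := by abel
        _ = 0 := by rw [hq, hquad σ, sub_self]
    obtain ⟨m₀, hm₀⟩ := exists_ne (0 : EigenT (tauT D S) (eigenvalue S 𝒪 χ))
    have h6 := congrArg (fun φ : Module.End 𝒪 (EigenT (tauT D S) (eigenvalue S 𝒪 χ)) =>
      φ (ρ σ⁻¹ m₀)) h5
    simp only [LinearMap.smul_apply, LinearMap.zero_apply] at h6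
    have h7 : ρ σ (ρ σ⁻¹ m₀) = m₀ := by
      rw [← Module.End.mul_apply, ← map_mul, mul_inv_cancel, map_one, Module.End.one_apply]
    rw [h7] at h6
    rcases smul_eq_zero.1 h6 with h8 | h8
    · exact sub_eq_zero.1 h8
    · exact absurd h8 hm₀
  · -- unramified outside `Np`
    intro q hq hqN hqp P hP σ hσ
    show ρ' σ = 1
    apply hone σ
    · exact galEigen_eq_one (a := eigenvalue S 𝒪 χ) D.gal hcomm (D.unram q hq hqN hqp P hP σ hσ)
    · exact cycloCharIn_inertia p _ hq hqp hP hσ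
  · -- the non-unipotency clause
    intro q hq hqp hnewq hU
    obtain ⟨K', P, hP, hstab, hinv, v, hvK', hv0, hv⟩ := hnewq
    -- `(ρ σ - 1)² = 0` for `σ ∈ I_P`
    have hsq : ∀ σ ∈ P.inertiaSubgroupIn ℚ, (ρ σ - 1) * (ρ σ - 1) = 0 := by
      intro σ hσ
      have hχ1 : ((χc σ : 𝒪ˣ) : 𝒪) = 1 := by
        have h1 : χc σ = 1 := cycloCharIn_inertia p _ hq hqp hP hσ
        rw [h1, Units.val_one]
      have h1 : LinearMap.charpoly (ρ' σ) = (X - 1) ^ 2 := hU P hP σ hσ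
      rw [hchar σ, hχ1] at h1
      have h3 : C (s σ) * X = C (2 : 𝒪) * (X : 𝒪[X]) := by
        have h4 : (X - 1 : 𝒪[X]) ^ 2 = X ^ 2 - C (2 : 𝒪) * X + C 1 := by
          rw [map_ofNat, map_one]; ring
        rw [h4] at h1
        linear_combination -h1
      have h5 : s σ = 2 := by
        have h6 := congrArg (fun f : 𝒪[X] => f.coeff 1) h3
        simpa using h6
      have h7 := hquad σ
      rw [hχ1, h5, one_smul, two_smul] at h7
      rw [← h7]
      noncomm_ring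
    -- the stable submodule `W = M_χ ⊓ (𝒪 ⊗ K')`
    set W : Submodule 𝒪 (EigenT (tauT D S) (eigenvalue S 𝒪 χ)) :=
      Submodule.comap (EigenT.val (tauT D S) (eigenvalue S 𝒪 χ))
        (LinearMap.range (K'.subtype.baseChange 𝒪)) with hWdef
    have hWstab : ∀ σ ∈ P.inertiaSubgroupIn ℚ, ∀ w ∈ W, ρ σ w ∈ W := by
      intro σ hσ w hw
      rw [hWdef, Submodule.mem_comap] at hw ⊢
      rw [coe_galEigen_apply D.gal hcomm σ w]
      exact baseChange_mem_range (D.gal σ) K' (hstab σ hσ) hw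
    have hW0 : W ≠ ⊥ := by
      intro h0
      have hmem : EigenT.mk (a := eigenvalue S 𝒪 χ) v hv ∈ W := by
        rw [hWdef, Submodule.mem_comap, EigenT.val_mk]
        exact hvK'
      rw [h0, Submodule.mem_bot] at hmem
      apply hv0
      have := congrArg (EigenT.val (tauT D S) (eigenvalue S 𝒪 χ)) hmem
      simpa using this
    obtain ⟨w, hwW, hw0, hwfix⟩ := exists_fixed_of_quadUnipotent_submodule h2 ρ
      (P.inertiaSubgroupIn ℚ) W hWstab hsq hW0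
    apply hw0
    apply EigenT.val_injective
    rw [map_zero]
    refine hinv _ hwW (fun σ hσ => ?_)
    rw [← coe_galEigen_apply D.gal hcomm σ w]
    exact congrArg _ (hwfix σ hσ)

end Layer1

/-! ### The statement of S36 -/

section Layer3

open Fermat.Agent.P4.S35Assembly

/-- **The frozen S36 from the Tate data of `J₀(M)` and `NewInertiaFree`.**  The hypotheses on the
newform `g` (`hg`, `hchig`, `hres`, `hlam2`) enter only through `hnew`. -/
theorem s36_of_tateData_of_newInertiaFree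
    {M : ℕ} [NeZero M] (lam : ℕ) [Fact lam.Prime]
    (S : Finset ℕ)
    (O' : Type) [CommRing O'] [IsDomain O'] [IsDiscreteValuationRing O']
    [IsAdicComplete (IsLocalRing.maximalIdeal O') O'] [Finite (IsLocalRing.ResidueField O')]
    [CharZero O'] (hlamO' : (lam : O') ∈ IsLocalRing.maximalIdeal O')
    (chig : CuspForm.heckeAlgebra M 2 (↑S : Set ℕ) →+* ℂ)
    (iota : chig.range →+* O')
    (hlamS : lam ∈ S) (hMS : ∀ q : ℕ, q.Prime → q ∣ M → q ∈ S)
    (D : TateData lam M)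
    (hnew : letI : Algebra ℤ_[lam] O' := padicAlgebra lam O' hlamO'
      ∀ q : ℕ, q.Prime → q ≠ lam → M.factorization q = 2 →
        NewInertiaFree D S O' (iota.comp chig.rangeRestrict) q) :
    ∃ (O'' : Type) (_ : CommRing O'') (_ : IsDomain O'') (_ : IsDiscreteValuationRing O'')
      (_ : IsAdicComplete (IsLocalRing.maximalIdeal O'') O'') (_ : Finite (IsLocalRing.ResidueField O''))
      (_ : CharZero O'') (_ : Algebra O' O'') (_ : Module.Finite O' O'') (_ : IsLocalHom (algebraMap O' O'')),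
      Function.Injective (algebraMap O' O'') ∧
      ∃ ρ : GaloisRepAdic O'',
        (∀ (ℓ : ℕ) (hℓ : ℓ.Prime) (hℓM : ¬ ℓ ∣ M) (hℓS : ℓ ∉ (↑S : Set ℕ)),
          ∀ A : ValuationSubring (AlgebraicClosure ℚ), A.LiesOverPrime ℓ →
            ∀ σ : AlgebraicClosure ℚ ≃ₐ[ℚ] AlgebraicClosure ℚ, A.IsFrobeniusAt σ ℓ →
              LinearMap.charpoly (ρ.ρ σ) =
                X ^ 2 - C (algebraMap O' O'' ((iota.comp chig.rangeRestrict) (CuspForm.heckeAlgebra.T hℓ hℓM hℓS))) * X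
                  + C ((ℓ : O''))) ∧
        (∀ q : ℕ, q.Prime → q ≠ lam → M.factorization q = 2 → ¬ ρ.IsUnipotentOnInertiaAt q) := by
  letI : Algebra ℤ_[lam] O' := padicAlgebra lam O' hlamO'
  obtain ⟨ρ, h1, -, h3⟩ := exists_galoisRepAdic_notUnipotent D S O' (iota.comp chig.rangeRestrict)
    hlamS hMS hlamO' (exists_eigenvector D S O' (iota.comp chig.rangeRestrict))
  refine ⟨O', inferInstance, inferInstance, inferInstance, inferInstance, inferInstance,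
    inferInstance, Algebra.id O', inferInstance, ?_, Function.injective_id, ρ, h1,
    fun q hq hql hq2 => h3 q hq hql (hnew q hq hql hq2)⟩
  exact isLocalHom_id O'

end Layer3

end Fermat.Agent.S36.Top.Assembly
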