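/-
S36 / TOP-B (helper27): **base change of invariants.**

`R` a principal ideal domain, `𝒪` a torsion-free `R`-algebra (NOT assumed finite over `R`), `T` a
torsion-free `R`-module, `K' ≤ T` a submodule stable under a family `Φ` of endomorphisms of `T`.
If `K'` has no nonzero vector fixed by all of `Φ`, then the image of `𝒪 ⊗ K'` in `𝒪 ⊗ T` has no
nonzero vector fixed by all `f.baseChange 𝒪`, `f ∈ Φ`.

Proof: an element `y ∈ 𝒪 ⊗ K'` comes from `A ⊗ K'` for a finitely generated, hence free,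
`R`-submodule `A ≤ 𝒪`; `A ⊗ K' → 𝒪 ⊗ K' → 𝒪 ⊗ T` is injective by flatness; in a basis `e` of `A`
we have `y = ∑ eᵢ ⊗ cᵢ` with unique `cᵢ ∈ K'`, and `y` is fixed iff all `cᵢ` are.

Consequence: `NewInertiaFreeInt → NewInertiaFree` (the input of `Top/Assembly` with the invariants
clause over `ℤ_[p]`).
-/
import Mathlib
import Fermat.Agent.S36.Top.Assembly

set_option autoImplicit false
set_option linter.style.haveILetI false

open TensorProduct

namespace Fermat.Agent.S36.Top.InvBaseChange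

section Abstract

variable {R 𝒪 T : Type*} [CommRing R] [IsDomain R] [IsPrincipalIdealRing R]
  [CommRing 𝒪] [Algebra R 𝒪] [Module.IsTorsionFree R 𝒪]
  [AddCommGroup T] [Module R T] [Module.IsTorsionFree R T]

/-- **Base change of invariants.** -/
theorem eq_zero_of_baseChange_fixed (K' : Submodule R T) (Φ : Set (Module.End R T))
    (hstab : ∀ f ∈ Φ, ∀ x ∈ K', f x ∈ K')
    (hinv : ∀ x ∈ K', (∀ f ∈ Φ, f x = x) → x = 0)
    {x : 𝒪 ⊗[R] T} (hx : x ∈ LinearMap.range (K'.subtype.baseChange 𝒪))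
    (hfix : ∀ f ∈ Φ, f.baseChange 𝒪 x = x) : x = 0 := by
  classical
  obtain ⟨y, rfl⟩ := hx
  -- a finitely generated submodule `A ≤ 𝒪` with `y ∈ A ⊗ K'`
  obtain ⟨A, hAfin, hyA⟩ := TensorProduct.exists_finite_submodule_left_of_setFinite
    ({y} : Set (𝒪 ⊗[R] K')) (Set.finite_singleton y)
  obtain ⟨yA, hyA'⟩ := hyA (Set.mem_singleton y)
  have : Module.Finite R A := hAfin
  have : Module.Free R A := Module.free_of_finite_type_torsion_free'
  let e := Module.Free.chooseBasis R A
  let E := TensorProduct.equivFinsuppOfBasisLeft (N := K') e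
  -- the injective map `A ⊗ K' → 𝒪 ⊗ T`
  have hinj1 : Function.Injective (A.subtype.rTensor K') :=
    Module.Flat.rTensor_preserves_injective_linearMap _ Subtype.val_injective
  have hinj2 : Function.Injective (K'.subtype.baseChange 𝒪) := by
    have : (K'.subtype.baseChange 𝒪 : 𝒪 ⊗[R] K' → 𝒪 ⊗[R] T) = K'.subtype.lTensor 𝒪 := by
      ext z
      rfl
    rw [this]
    exact Module.Flat.lTensor_preserves_injective_linearMap _ Subtype.val_injective
  -- the components are fixed
  have hcomp : ∀ f ∈ Φ, ∀ i, f ((E yA i : K') : T) = ((E yA i : K') : T) := by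
    intro f hf i
    set f' : K' →ₗ[R] K' := f.restrict (hstab f hf) with hf'
    -- equivariance of `ψ`
    have hequiv : ∀ z : A ⊗[R] K', K'.subtype.baseChange 𝒪 (A.subtype.rTensor K' (f'.lTensor A z))
        = f.baseChange 𝒪 (K'.subtype.baseChange 𝒪 (A.subtype.rTensor K' z)) := by
      intro z
      induction z using TensorProduct.induction_on with
      | zero => simp
      | tmul a k => simp [hf']
      | add z₁ z₂ h₁ h₂ => simp only [map_add, h₁, h₂]
    have h1 : f'.lTensor A yA = yA := by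
      apply hinj1
      apply hinj2
      rw [hequiv, hyA', hfix f hf]
    -- equivariance of `E`
    have hE : ∀ z : A ⊗[R] K', E (f'.lTensor A z) i = f' (E z i) := by
      intro z
      induction z using TensorProduct.induction_on with
      | zero => simp
      | tmul a k =>
        simp only [LinearMap.lTensor_tmul, E, TensorProduct.equivFinsuppOfBasisLeft_apply_tmul,
          Finsupp.mapRange_apply, map_smul]
      | add z₁ z₂ h₁ h₂ => simp only [map_add, Finsupp.add_apply, h₁, h₂]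
    have h2 := hE yA
    rw [h1] at h2
    have h3 := congrArg (Subtype.val : K' → T) h2
    rw [hf'] at h3
    exact h3.symm
  have hzero : E yA = 0 := by
    ext i
    have := hinv ((E yA i : K') : T) (E yA i).2 (fun f hf => hcomp f hf i)
    simpa using this
  have hyA0 : yA = 0 := by
    have := congrArg E.symm hzero
    simpa using this
  rw [← hyA', hyA0, map_zero, map_zero]

end Abstract

/-! ### The `ℤ_[p]`-form of the input of S36 -/

section NewInertia

open Fermat.Agent.N4F.Adic Fermat.Agent.N4F.Adic.S30Assembly CuspForm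
  Fermat.Agent.S36.Top.Assembly

local notation "Qbar" => AlgebraicClosure ℚ

variable {p N : ℕ} [Fact p.Prime] [NeZero N] (D : TateData p N) (S : Finset ℕ)
  (𝒪 : Type) [CommRing 𝒪] [Algebra ℤ_[p] 𝒪] (χ : heckeAlgebra N 2 (↑S : Set ℕ) →+* 𝒪)

/-- **The input of S36 at a prime `q`, with the invariants clause over `ℤ_[p]`**: `K'` has no nonzero
vector fixed by the inertia group `I_P` (the CLAIM `New^{I} = 0` of the blueprint, verbatim). -/
def NewInertiaFreeInt (q : ℕ) : Prop :=
  ∃ (K' : Submodule ℤ_[p] D.T) (P : ValuationSubring Qbar), P.LiesOverPrime q ∧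
    (∀ σ ∈ P.inertiaSubgroupIn ℚ, ∀ x ∈ K', D.gal σ x ∈ K') ∧
    (∀ x ∈ K', (∀ σ ∈ P.inertiaSubgroupIn ℚ, D.gal σ x = x) → x = 0) ∧
    ∃ v ∈ LinearMap.range (K'.subtype.baseChange 𝒪), v ≠ 0 ∧
      ∀ i, (tauT D S i).baseChange 𝒪 v = eigenvalue S 𝒪 χ i • v

variable {D S 𝒪 χ}

theorem NewInertiaFreeInt.newInertiaFree [Module.IsTorsionFree ℤ_[p] 𝒪] {q : ℕ}
    (h : NewInertiaFreeInt D S 𝒪 χ q) : NewInertiaFree D S 𝒪 χ q := by
  obtain ⟨K', P, hP, hstab, hinv, hv⟩ := h
  refine ⟨K', P, hP, hstab, ?_, hv⟩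
  intro x hx hfix
  refine eq_zero_of_baseChange_fixed (𝒪 := 𝒪) K'
    {f | ∃ σ ∈ P.inertiaSubgroupIn ℚ, f = D.gal σ} ?_ ?_ hx ?_
  · rintro _ ⟨σ, hσ, rfl⟩ y hy
    exact hstab σ hσ y hy
  · intro y hy hfy
    exact hinv y hy (fun σ hσ => hfy _ ⟨σ, hσ, rfl⟩)
  · rintro _ ⟨σ, hσ, rfl⟩
    exact hfix σ hσ

end NewInertia

/-! ### The statement of S36, from the `ℤ_[lam]`-form of the input -/

section Layer3

open Polynomial Fermat.Agent.N4F.Adic Fermat.Agent.N4F.Adic.S30Assembly CuspForm
  Fermat.Agent.S36.Top.Assembly Fermat.Agent.P4.S35Assembly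

/-- **The frozen S36 from the Tate data of `J₀(M)` and `NewInertiaFreeInt`** (invariants clause over
`ℤ_[lam]`). -/
theorem s36_of_tateData_of_newInertiaFreeInt
    {M : ℕ} [NeZero M] (lam : ℕ) [Fact lam.Prime]
    (S : Finset ℕ)
    (O' : Type) [CommRing O'] [IsDomain O'] [IsDiscreteValuationRing O']
    [IsAdicComplete (IsLocalRing.maximalIdeal O') O'] [Finite (IsLocalRing.ResidueField O')]
    [CharZero O'] (hlamO' : (lam : O') ∈ IsLocalRing.maximalIdeal O')
    (chig : CuspForm.heckeAlgebra M 2 (↑S : Set ℕ) →+* ℂ)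
    (iota : chig.range →+* O')
    (hlamS : lam ∈ S) (hMS : ∀ q : ℕ, q.Prime → q ∣ M → q ∈ S)
    (D : TateData lam M)
    (hnew : letI : Algebra ℤ_[lam] O' := padicAlgebra lam O' hlamO'
      ∀ q : ℕ, q.Prime → q ≠ lam → M.factorization q = 2 →
        NewInertiaFreeInt D S O' (iota.comp chig.rangeRestrict) q) :
    ∃ (O'' : Type) (_ : CommRing O'') (_ : IsDomain O'') (_ : IsDiscreteValuationRing O'')
      (_ : IsAdicComplete (IsLocalRing.maximalIdeal O'') O'') (_ : Finite (IsLocalRing.ResidueField O''))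
      (_ : CharZero O'') (_ : Algebra O' O'') (_ : Module.Finite O' O'') (_ : IsLocalHom (algebraMap O' O'')),
      Function.Injective (algebraMap O' O'') ∧
      ∃ ρ : GaloisRepAdic O'',
        (∀ (ℓ : ℕ) (hℓ : ℓ.Prime) (hℓM : ¬ ℓ ∣ M) (hℓS : ℓ ∉ (↑S : Set ℕ)),
          ∀ A : ValuationSubring (AlgebraicClosure ℚ), A.LiesOverPrime ℓ →
            ∀ σ : AlgebraicClosure ℚ ≃ₐ[ℚ] AlgebraicClosure ℚ, A.IsFrobeniusAt σ ℓ →
              LinearMap.charpoly (ρ.ρ σ) =
                X ^ 2 - C (algebraMap O' O'' ((iota.comp chig.rangeRestrict) (CuspForm.heckeAlgebra.T hℓ hℓM hℓS))) * X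
                  + C ((ℓ : O''))) ∧
        (∀ q : ℕ, q.Prime → q ≠ lam → M.factorization q = 2 → ¬ ρ.IsUnipotentOnInertiaAt q) := by
  letI : Algebra ℤ_[lam] O' := padicAlgebra lam O' hlamO'
  haveI : FaithfulSMul ℤ_[lam] O' :=
    (faithfulSMul_iff_algebraMap_injective _ _).mpr
      (Fermat.Agent.N4F.Adic.Occurrence.algebraMap_padicInt_injective lam)
  haveI : Module.IsTorsionFree ℤ_[lam] O' := inferInstance
  exact s36_of_tateData_of_newInertiaFree lam S O' hlamO' chig iota hlamS hMS D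
    (fun q hq hql hq2 => (hnew q hq hql hq2).newInertiaFree)

end Layer3

end Fermat.Agent.S36.Top.InvBaseChange
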