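/-
S36 / TOP-C (helper27): **the top of the chain — the frozen S36 from the two halves of `hnew`.**

`InvBaseChange.s36_of_tateData_of_newInertiaFreeInt` reduces S36 to `NewInertiaFreeInt D S O' χ q`
at every `q ≠ lam` with `M.factorization q = 2`.  Here we take (exactly as `P4/S35Final`, `S35Top`)

* `D := KummerExplicit.tateData M lam (esAll M)` (`T = TJ lam M`, `gal = TateJ.gal`);
* `K' := PushTate.newT lam N q` after writing `M = N * q` (now `q ∣ N`, `¬ q² ∣ N`);
* Galois stability = `PushTate.gal_mem_newT`;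
* invariants clause  = `newT_inertia_free` below, from the torsion-level CLAIM `InertiaTorsionBound`
  (`∃ c ≠ 0`, every `lam^k`-torsion point of the `q`-new part of `J₀(N q)` fixed by an inertia group
  at `q` is killed by `c`; blueprint `moonshots` 44: "Enough: ∃ c ∀ n: c·(J0(M)[lam^n]^{I_A} ∩ new_n)
  = 0");
* new vector = `NewEigenvectorQ` below (the `q ∣ N` twin of `S35Top.NewEigenvector`; helper2's and
  helper7's `S36/New/*` through `P4S35/NewAssembly.exists_new_vector_tateData`).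
-/
import Mathlib
import Fermat.Agent.S36.Top.InvBaseChange
import Fermat.Agent.P4.S35Top

set_option autoImplicit false
set_option linter.style.haveILetI false
set_option linter.unusedSectionVars false
set_option linter.unusedVariables false

open Polynomial TensorProduct ModularCurve AlgebraicCurve PadicInt

noncomputable section

namespace Fermat.Agent.S36.Top.Final

open Fermat.Agent.N4F.Adic Fermat.Agent.N4F.Res Fermat.Agent.P4.S35Assembly CuspForm
open Fermat.Agent.N4F.Adic.TateModule Fermat.Agent.N4F.Adic.TateJ Fermat.Agent.N4F.Core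
open Fermat.Agent.P4.PushTate Fermat.Agent.P4.KummerExplicit Fermat.Agent.P4.Push
open Fermat.Agent.P4.S35Top Fermat.Agent.S36.Top.Assembly Fermat.Agent.S36.Top.InvBaseChange

local notation "Qbar" => AlgebraicClosure ℚ
local notation "Γ" => (AlgebraicClosure ℚ ≃ₐ[ℚ] AlgebraicClosure ℚ)

/-- **The geometric input of S36 (the CLAIM at finite level).**  For `q ∥ N` and a prime
`lam ≠ q` there are a place `P` of `Qbar` over `q` and a nonzero integer `c` such that every point
of `lam`-power order of the `q`-new part of `J₀(N q)` fixed by the inertia group `I_P` is killed by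
`c`. -/
def InertiaTorsionBound : Prop :=
  ∀ (N q : ℕ) [NeZero N] [NeZero q], q.Prime → q ∣ N → ¬ q ^ 2 ∣ N →
    ∀ (lam : ℕ) [Fact lam.Prime], q ≠ lam →
      ∃ P : ValuationSubring Qbar, P.LiesOverPrime q ∧ ∃ c : ℕ, c ≠ 0 ∧
        ∀ k : ℕ, ∀ y ∈ newPart N q, lam ^ k • y = 0 →
          (∀ σ ∈ P.inertiaSubgroupIn ℚ, σ • y = y) → c • y = 0

/-- **The lattice input of S36** (the `q ∣ N` twin of `S35Top.NewEigenvector`): the base change of
the `q`-new part `newT lam N q` of the Tate module of `J₀(N q)`, `q ∥ N`, contains a nonzero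
eigenvector with the Hecke eigenvalues of a newform `g` of level `N q`. -/
def NewEigenvectorQ : Prop :=
  ∀ (N q : ℕ) [NeZero N] [NeZero q], q.Prime → q ∣ N → ¬ q ^ 2 ∣ N →
    ∀ {g : CuspForm (CongruenceSubgroup.Gamma0 (N * q)) 2}, g.IsNewform →
    ∀ (lam : ℕ) [Fact lam.Prime], q ≠ lam → ∀ (S : Finset ℕ)
      (O' : Type) [CommRing O'] [IsDomain O'] [IsDiscreteValuationRing O']
      [IsAdicComplete (IsLocalRing.maximalIdeal O') O'] [Finite (IsLocalRing.ResidueField O')]
      [CharZero O'] (hlamO' : (lam : O') ∈ IsLocalRing.maximalIdeal O')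
      (chig : CuspForm.heckeAlgebra (N * q) 2 (↑S : Set ℕ) →+* ℂ)
      (hchig : ∀ (ℓ : ℕ) (hℓ : ℓ.Prime) (hℓM : ¬ ℓ ∣ N * q) (hℓS : ℓ ∉ (↑S : Set ℕ)),
        chig (CuspForm.heckeAlgebra.T hℓ hℓM hℓS) = ModularFormClass.qCoeff g ℓ)
      (iota : chig.range →+* O') (hlamS : lam ∈ S)
      (hMS : ∀ r : ℕ, r.Prime → r ∣ N * q → r ∈ S),
      letI : Algebra ℤ_[lam] O' := padicAlgebra lam O' hlamO'
      ∃ v ∈ LinearMap.range ((newT lam N q).subtype.baseChange O'), v ≠ 0 ∧
        ∀ i, (S30Assembly.tauT (tateData (N * q) lam (esAll (N * q))) S i).baseChange O' v =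
          S30Assembly.eigenvalue S O' (iota.comp chig.rangeRestrict) i • v

/-- **The CLAIM passes to the limit**: under the torsion-level bound, `newT` has no nonzero vector
fixed by the inertia group. -/
theorem newT_inertia_free {lam N q : ℕ} [Fact lam.Prime] [NeZero N] [NeZero q]
    {P : ValuationSubring Qbar} {c : ℕ} (hc : c ≠ 0)
    (h : ∀ k : ℕ, ∀ y ∈ newPart N q, lam ^ k • y = 0 →
      (∀ σ ∈ P.inertiaSubgroupIn ℚ, σ • y = y) → c • y = 0)
    (x : TJ lam (N * q)) (hx : x ∈ newT lam N q)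
    (hfix : ∀ σ ∈ P.inertiaSubgroupIn ℚ, gal lam (N * q) σ x = x) : x = 0 := by
  have h1 : (c : ℤ_[lam]) • x = 0 := by
    refine Tate.ext fun k => ?_
    have h2 : c • (x : ℕ → JZero (N * q)) k = 0 := by
      refine h k _ (mem_newT_iff_proj.mp hx k) (Tate.pow_smul_apply x k) (fun σ hσ => ?_)
      have h3 := congrArg (fun z : TJ lam (N * q) => (z : ℕ → JZero (N * q)) k) (hfix σ hσ)
      simpa [gal_apply_coe] using h3
    have h4 : Tate.proj k ((c : ℤ_[lam]) • x) = c • Tate.proj k x := by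
      rw [Nat.cast_smul_eq_nsmul, map_nsmul]
    exact h4.trans h2
  exact Tate.smul_eq_zero_imp (Nat.cast_ne_zero.2 hc) h1

/-- **Frozen S36 from the geometric input and the lattice input.** -/
theorem s36_of_inertiaTorsionBound_of_newEigenvectorQ (hI : InertiaTorsionBound)
    (hNE : NewEigenvectorQ)
    {M : ℕ} [NeZero M] {g : CuspForm (CongruenceSubgroup.Gamma0 M) 2} (hg : g.IsNewform)
    (lam : ℕ) [Fact lam.Prime]
    (S : Finset ℕ)
    (O' : Type) [CommRing O'] [IsDomain O'] [IsDiscreteValuationRing O']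
    [IsAdicComplete (IsLocalRing.maximalIdeal O') O'] [Finite (IsLocalRing.ResidueField O')]
    [CharZero O'] (hlamO' : (lam : O') ∈ IsLocalRing.maximalIdeal O')
    (chig : CuspForm.heckeAlgebra M 2 (↑S : Set ℕ) →+* ℂ)
    (hchig : ∀ (ℓ : ℕ) (hℓ : ℓ.Prime) (hℓM : ¬ ℓ ∣ M) (hℓS : ℓ ∉ (↑S : Set ℕ)),
      chig (CuspForm.heckeAlgebra.T hℓ hℓM hℓS) = ModularFormClass.qCoeff g ℓ)
    (iota : chig.range →+* O')
    (hlamS : lam ∈ S) (hMS : ∀ q : ℕ, q.Prime → q ∣ M → q ∈ S) :
    ∃ (O'' : Type) (_ : CommRing O'') (_ : IsDomain O'') (_ : IsDiscreteValuationRing O'')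
      (_ : IsAdicComplete (IsLocalRing.maximalIdeal O'') O'') (_ : Finite (IsLocalRing.ResidueField O''))
      (_ : CharZero O'') (_ : Algebra O' O'') (_ : Module.Finite O' O'') (_ : IsLocalHom (algebraMap O' O'')),
      Function.Injective (algebraMap O' O'') ∧
      ∃ ρ : GaloisRepAdic O'',
        (∀ (ℓ : ℕ) (hℓ : ℓ.Prime) (hℓM : ¬ ℓ ∣ M) (hℓS : ℓ ∉ (↑S : Set ℕ)),
          ∀ A : ValuationSubring (AlgebraicClosure ℚ), A.LiesOverPrime ℓ →
            ∀ σ : AlgebraicClosure ℚ ≃ₐ[ℚ] AlgebraicClosure ℚ, A.IsFrobeniusAt σ ℓ →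
              LinearMap.charpoly (ρ.ρ σ) =
                X ^ 2 - C (algebraMap O' O'' ((iota.comp chig.rangeRestrict) (CuspForm.heckeAlgebra.T hℓ hℓM hℓS))) * X
                  + C ((ℓ : O''))) ∧
        (∀ q : ℕ, q.Prime → q ≠ lam → M.factorization q = 2 → ¬ ρ.IsUnipotentOnInertiaAt q) := by
  letI : Algebra ℤ_[lam] O' := padicAlgebra lam O' hlamO'
  refine s36_of_tateData_of_newInertiaFreeInt lam S O' hlamO' chig iota hlamS hMS
    (tateData M lam (esAll M)) ?_
  intro q hq hql hq2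
  -- write `M = N * q` with `q ∥ N`
  have hM0 : M ≠ 0 := NeZero.ne M
  have hqM2 : q ^ 2 ∣ M := (hq.pow_dvd_iff_le_factorization hM0).2 hq2.ge
  have hqM3 : ¬ q ^ 3 ∣ M := by
    rw [hq.pow_dvd_iff_le_factorization hM0, hq2]
    decide
  have hqM : q ∣ M := (dvd_pow_self q two_ne_zero).trans hqM2
  obtain ⟨N, rfl⟩ := exists_eq_mul_left_of_dvd hqM
  have hN0 : N ≠ 0 := fun h => NeZero.ne (N * q) (by rw [h, zero_mul])
  haveI : NeZero N := ⟨hN0⟩
  haveI : NeZero q := ⟨hq.ne_zero⟩
  have hqN : q ∣ N := by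
    have h1 : q * q ∣ N * q := by rwa [← pow_two]
    exact (Nat.mul_dvd_mul_iff_right hq.pos).1 h1
  have hqN2 : ¬ q ^ 2 ∣ N := by
    intro h
    apply hqM3
    rw [pow_succ]
    exact Nat.mul_dvd_mul_right h q
  obtain ⟨P, hP, c, hc, hbound⟩ := hI N q hq hqN hqN2 lam hql
  refine ⟨newT lam N q, P, hP, ?_, ?_, ?_⟩
  · intro σ _ x hx
    exact gal_mem_newT σ hx
  · intro x hx hfix
    exact newT_inertia_free hc hbound x hx hfix
  · exact hNE N q hq hqN hqN2 hg lam hql S O' hlamO' chig hchig iota hlamS hMS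

end Fermat.Agent.S36.Top.Final
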